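import Fermat.Agent.S55.G.CM.Spec
import Fermat.Agent.S55.T.InfDescentH244

/-!
# S55 / G-CM:ORD — `QuotOrderSpec`  (helper644)

`π : Γ' ↠ Γ`, `Γ` a `p`-group, `C = C'^{ker π}` (via `ι`), `(C', γ)` a class module at `p`.
Then `H²(Γ, C)` contains a class of order (at least) `|Γ|`.

Proof.  `N = ker π`, `P'` a Sylow `p`-subgroup of `Γ'`, `t = [Γ' : P']`, `Y = (|N| t) • γ`.
`res_N Y = 0` (`|N|` kills `H²(N, -)`); `m` prime to `p` kills `H¹(N, C')`; the cochain form of
inflation–restriction up to torsion (helper244) gives a cocycle of `Γ` with values in `C` whose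
inflation is `m • Y`.  Orders are read off on `P'`, where `res γ` has order exactly `|P'|`.
-/

set_option autoImplicit false
set_option linter.unusedSectionVars false

namespace Fermat.Agent.S55.G.CM.H644

open CategoryTheory groupCohomology Rep
open Fermat.Agent.S55 Fermat.Agent.S55.T Fermat.Agent.S55.T.H244 Fermat.Agent.S55.H954

section Descend

variable {k G G' : Type} [CommRing k] [Group G] [Group G']

set_option backward.defeqAttrib.useBackward true in
set_option backward.isDefEq.respectTransparency false in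
/-- **Inflation along a surjection with descent, exactness up to torsion (cochain form).**
If `m` kills `H¹(ker π, C')`, `tr : C → C'` is injective with image the `ker π`-invariants and
`res_{ker π} x = 0`, then `m • x` is inflated from `H²(G, C)`. -/
theorem exists_map_eq_nsmul_of_resMap_eq_zero (π : G' →* G) (hπ : Function.Surjective π)
    (C : Rep.{0} k G) (C' : Rep.{0} k G') (tr : Rep.res π C ⟶ C')
    (htr_inj : Function.Injective tr.hom)
    (htr_surj : ∀ c' : C'.V, (∀ n ∈ π.ker, C'.ρ n c' = c') → ∃ c : C.V, tr.hom c = c')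
    {m : ℕ} (hkill : HOneKilledBy m C'.ρ π.ker)
    (x : groupCohomology C' 2) (hx : (resMap C' π.ker 2).hom x = 0) :
    ∃ z : groupCohomology C 2, (groupCohomology.map π tr 2).hom z = m • x := by
  induction x using H2_induction_on with | @h x =>
  have hx' : H2π (res π.ker.subtype C')
      (mapCocycles₂ π.ker.subtype (𝟙 (res π.ker.subtype C')) x) = 0 := by
    rw [← H2π_comp_map_apply π.ker.subtype]; exact hx
  obtain ⟨(φ : π.ker → C'), hφ⟩ := (H2π_eq_zero_iff _).1 hx'
  have hcoc : IsTwoCocycle C'.ρ x := (mem_cocycles₂_iff _).1 x.2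
  have hφ' : ∀ s t : π.ker, x ((s : G'), (t : G')) = C'.ρ s (φ t) - φ (s * t) + φ s := by
    intro s t
    have := congr_fun hφ (s, t)
    rw [d₁₂_hom_apply] at this
    exact this.symm
  obtain ⟨c, f', hff', hf'coc, i2, i1, i3⟩ :=
    exists_inflated_of_res_coboundary_nsmul C'.ρ π.ker hkill hcoc φ hφ'
  -- equivariance of `tr`
  have htr_eq : ∀ (a : G') (v : C.V), tr.hom (C.ρ (π a) v) = C'.ρ a (tr.hom v) := by
    intro a v
    exact Rep.hom_comm_apply tr a v
  -- descend `f'` to a cochain of `G` with values in `C`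
  have hex : ∀ q : G × G, ∃ v : C.V, ∀ a b : G', π a = q.1 → π b = q.2 →
      tr.hom v = f' (a, b) := by
    rintro ⟨g, h⟩
    obtain ⟨a₀, ha₀⟩ := hπ g
    obtain ⟨b₀, hb₀⟩ := hπ h
    obtain ⟨v, hv⟩ := htr_surj (f' (a₀, b₀)) (fun n hn => i3 n hn a₀ b₀)
    refine ⟨v, fun a b ha hb => ?_⟩
    have hs : a₀⁻¹ * a ∈ π.ker := by
      rw [MonoidHom.mem_ker, map_mul, map_inv, ha₀, ha]; exact inv_mul_cancel g
    have hs' : b₀⁻¹ * b ∈ π.ker := by
      rw [MonoidHom.mem_ker, map_mul, map_inv, hb₀, hb]; exact inv_mul_cancel h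
    have e1 : a = a₀ * (a₀⁻¹ * a) := by group
    have e2 : b = b₀ * (b₀⁻¹ * b) := by group
    rw [hv, e1, e2, i1 _ hs, i2 _ hs']
  choose fbar hfbar using hex
  have hfb : ∀ a b : G', tr.hom (fbar (π a, π b)) = f' (a, b) :=
    fun a b => hfbar (π a, π b) a b rfl rfl
  have hfbar_mem : fbar ∈ cocycles₂ C := by
    rw [mem_cocycles₂_iff]
    intro g h j
    obtain ⟨a, rfl⟩ := hπ g
    obtain ⟨b, rfl⟩ := hπ h
    obtain ⟨d, rfl⟩ := hπ j
    apply htr_inj
    have e := hf'coc a b d
    rw [map_add, map_add, htr_eq, ← map_mul, ← map_mul, hfb, hfb, hfb, hfb]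
    exact e
  refine ⟨H2π _ ⟨fbar, hfbar_mem⟩, ?_⟩
  rw [← map_nsmul]
  erw [H2π_comp_map_apply π]
  rw [H2π_eq_iff]
  refine ⟨-c, ?_⟩
  funext ⟨g, j⟩
  have := congr_fun hff' (g, j)
  rw [d₁₂_hom_apply]
  change _ = tr.hom (fbar (π g, π j)) - (m • x) (g, j)
  have hmx : (m • x) (g, j) = (m • (x : G' × G' → C')) (g, j) := rfl
  rw [hmx, this, hfb]
  simp only [Pi.add_apply, dOne_apply, Pi.neg_apply, map_neg]
  abel

end Descend

/-- Arithmetic: `a = p^α`, `|P| ∣ n m K t`, `a K = |P| t`, `m, t` prime to `p`  ⟹  `a ∣ n`. -/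
lemma dvd_of_card_arith {p a cP K t m n : ℕ} (ha : ∃ α, a = p ^ α)
    (hcP : 0 < cP) (hKa : a * K = cP * t) (hm : m.Coprime p) (ht : t.Coprime p)
    (h : cP ∣ n * m * (K * t)) : a ∣ n := by
  obtain ⟨α, rfl⟩ := ha
  have h1 : cP * p ^ α ∣ cP * (n * (m * t * t)) := by
    have := mul_dvd_mul_right h (p ^ α)
    have e : n * m * (K * t) * p ^ α = cP * (n * (m * t * t)) := by
      calc n * m * (K * t) * p ^ α = n * m * t * (p ^ α * K) := by ring
        _ = n * m * t * (cP * t) := by rw [hKa]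
        _ = cP * (n * (m * t * t)) := by ring
    rwa [e] at this
  have h2 : p ^ α ∣ n * (m * t * t) := Nat.dvd_of_mul_dvd_mul_left hcP h1
  have hcop : (p ^ α).Coprime (m * t * t) := by
    apply Nat.Coprime.pow_left
    exact Nat.Coprime.mul_right (Nat.Coprime.mul_right hm.symm ht.symm) ht.symm
  exact hcop.dvd_of_dvd_mul_right h2

/-- **G-CM:ORD.** -/
theorem quotOrder : QuotOrderSpec := by
  intro p hp Γ' Γ _ _ _ π hπ hΓ C C' ι hι γ hγ
  have : Fact p.Prime := ⟨hp⟩
  have : Finite Γ := Finite.of_surjective π hπ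
  obtain ⟨P⟩ : Nonempty (Sylow p Γ') := inferInstance
  set t := (P : Subgroup Γ').index with ht
  have htcop : t.Coprime p := by
    rw [Nat.coprime_comm, Nat.Prime.coprime_iff_not_dvd hp]
    exact P.not_dvd_index
  obtain ⟨-, hcardP, hgenP⟩ := hγ (P : Subgroup Γ') P.2
  have hH1 : ∀ Q : Subgroup Γ', IsPGroup p Q →
      Limits.IsZero (groupCohomology (resSub C' Q) 1) := fun Q hQ => (hγ Q hQ).1
  obtain ⟨m, hm, hkill⟩ := exists_coprime_hOneKilledBy C' p hH1 π.ker
  set K := Nat.card π.ker with hK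
  set Y : groupCohomology C' 2 := (K * t) • γ with hY
  have hresY : (resMap C' π.ker 2).hom Y = 0 := by
    rw [hY, map_nsmul, mul_nsmul']
    exact H572.cardTorsion ℤ π.ker (resSub C' π.ker) 2 (by norm_num) _
  obtain ⟨z, hz⟩ := exists_map_eq_nsmul_of_resMap_eq_zero π hπ C C' ι hι.1
    (fun c' hc' => hι.2 c' hc') hkill Y hresY
  refine ⟨z, fun n hn => ?_⟩
  have h1 : n • m • Y = 0 := by rw [← hz, ← map_nsmul, hn, map_zero]
  have h2 : (n * m * (K * t)) • (resMap C' (P : Subgroup Γ') 2).hom γ = 0 := by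
    have := congrArg (resMap C' (P : Subgroup Γ') 2).hom h1
    rw [map_nsmul, map_nsmul, hY, map_nsmul, map_zero] at this
    rw [mul_nsmul', mul_nsmul']
    exact this
  have hord : addOrderOf ((resMap C' (P : Subgroup Γ') 2).hom γ) = Nat.card (P : Subgroup Γ') := by
    rw [← hcardP]
    apply addOrderOf_eq_card_of_forall_mem_zmultiples
    intro x
    obtain ⟨k, hk⟩ := hgenP x
    rw [hk]
    exact AddSubgroup.nsmul_mem_zmultiples _ k
  have h3 : Nat.card (P : Subgroup Γ') ∣ n * m * (K * t) := by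
    rw [← hord]; exact addOrderOf_dvd_of_nsmul_eq_zero h2
  have hcard1 : Nat.card (P : Subgroup Γ') * t = Nat.card Γ' := Subgroup.card_mul_index _
  have hcard2 : Nat.card Γ' = Nat.card Γ * K := by
    rw [Subgroup.card_eq_card_quotient_mul_card_subgroup π.ker]
    congr 1
    exact Nat.card_congr (QuotientGroup.quotientKerEquivOfSurjective π hπ).toEquiv
  exact dvd_of_card_arith (IsPGroup.exists_card_eq hΓ) Nat.card_pos
    (by rw [← hcard2, hcard1]) hm htcop h3

end Fermat.Agent.S55.G.CM.H644
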